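/-
S19lib / Geom / Setup  (helper3, architect)  — Project FF, geometry

The SYMMETRY interface of the geometric blocks, over an abstract reduction datum
`D : RedDatum A F Fk`:

* generalities on semilinear automorphisms `σ : SemilinearAut L F` (no reduction):
  `ev (σ • P) (σ • f) = σ̂ (ev P f)`, `dq (σ • P) (σ • t) (σ • f) = σ • dq P t f`;
* `SymData D G` : a group `G` acting on `F / L` and on `Fk / k` compatibly with `O`, `red`, `r`,
  with a normal subgroup `I` ("inertia") acting trivially on the residue side;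
* `SymData.R` : the subring of `I`-fixed elements of `A`;
* `SymData.FixF`, `SymData.FixP` : `I`-fixed functions, places;
* transport of `DiscReg`, `IsParamAt` by a symmetry;
* `SymData.HasFixedLifts` : the lifting property of `I`-stable Riemann–Roch spaces.

Concrete instance (block FF-B/Inst): `G = D_A ≤ G_ℚ`, `ρ = S37lib.C0.galAut`,
`ρb = S37lib.C0.resAutD`.
-/
import Fermat.Agent.S19lib.C.Disc
import Fermat.Agent.S19lib.An.Defs

set_option autoImplicit false
set_option linter.unusedSectionVars false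

noncomputable section

namespace Fermat.Agent.S19lib.Geom

open AlgebraicCurve Fermat.Agent.LSb Fermat.Agent.S18lib Fermat.Agent.S19lib.C

/-! ### semilinear automorphisms and evaluation -/

section Semilinear

variable {K F : Type*} [Field K] [Field F] [Algebra K F]

theorem smul_sub_const (σ : SemilinearAut K F) (f : F) (c : K) :
    σ • (f - algebraMap K F c) = σ • f - algebraMap K F (SemilinearAut.baseAut σ c) := by
  rw [smul_sub, SemilinearAut.smul_algebraMap]

theorem hasValueAt_smul (σ : SemilinearAut K F) {P : Place K F} {f : F} {c : K}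
    (h : HasValueAt P f c) : HasValueAt (σ • P) (σ • f) (SemilinearAut.baseAut σ c) := by
  rw [hasValueAt_iff] at h ⊢
  rcases h with h | h
  · left
    rw [h, SemilinearAut.smul_algebraMap]
  · right
    rw [← smul_sub_const, SemilinearAut.ord_smul]
    exact h

theorem regAt_smul (σ : SemilinearAut K F) {P : Place K F} {f : F} (h : RegAt P f) :
    RegAt (σ • P) (σ • f) := by
  rw [regAt_iff_ord] at h ⊢
  rwa [SemilinearAut.ord_smul]

theorem regAt_smul_iff (σ : SemilinearAut K F) {P : Place K F} {f : F} :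
    RegAt (σ • P) (σ • f) ↔ RegAt P f := by
  rw [regAt_iff_ord, regAt_iff_ord, SemilinearAut.ord_smul]

/-- **equivariance of the evaluation** -/
theorem ev_smul_smul (σ : SemilinearAut K F) {P : Place K F} (hP : P.deg = 1) {f : F}
    (hf : RegAt P f) : ev (σ • P) (σ • f) = SemilinearAut.baseAut σ (ev P f) :=
  ev_eq_of_hasValueAt (hasValueAt_smul σ (hasValueAt_ev hP hf))

/-- evaluation at a fixed place of a fixed function is fixed -/
theorem ev_fixed (σ : SemilinearAut K F) {P : Place K F} (hP : P.deg = 1) {f : F}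
    (hf : RegAt P f) (hσP : σ • P = P) (hσf : σ • f = f) :
    SemilinearAut.baseAut σ (ev P f) = ev P f := by
  rw [← ev_smul_smul σ hP hf, hσP, hσf]

/-- **equivariance of the divided difference** -/
theorem dq_smul_smul (σ : SemilinearAut K F) {P : Place K F} (hP : P.deg = 1) {t f : F}
    (ht : RegAt P t) (hf : RegAt P f) :
    dq (σ • P) (σ • t) (σ • f) = σ • dq P t f := by
  rw [dq, dq, ev_smul_smul σ hP hf, ev_smul_smul σ hP ht, ← smul_sub_const, ← smul_sub_const,
    div_eq_mul_inv, div_eq_mul_inv, smul_mul', smul_inv'']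

theorem dq_fixed (σ : SemilinearAut K F) {P : Place K F} (hP : P.deg = 1) {t f : F}
    (ht : RegAt P t) (hf : RegAt P f) (hσP : σ • P = P) (hσt : σ • t = t) (hσf : σ • f = f) :
    σ • dq P t f = dq P t f := by
  rw [← dq_smul_smul σ hP ht hf, hσP, hσt, hσf]

end Semilinear

/-! ### symmetry data -/

variable {L : Type*} [Field L] {A : ValuationSubring L}
variable {F : Type*} [Field F] [Algebra L F]
variable {Fk : Type*} [Field Fk] [Algebra (IsLocalRing.ResidueField A) Fk]

local notation "k" => IsLocalRing.ResidueField A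

/-- A group of symmetries of a reduction datum, with its inertia subgroup. -/
structure SymData (D : RedDatum A F Fk) (G : Type*) [Group G] where
  /-- the action in characteristic zero -/
  ρ : G →* SemilinearAut L F
  /-- the action on the residue side -/
  ρb : G →* SemilinearAut k Fk
  /-- the inertia subgroup -/
  I : Subgroup G
  normal : I.Normal
  mem_A : ∀ (g : G) (a : L), a ∈ A → SemilinearAut.baseAut (ρ g) a ∈ A
  residue_base : ∀ (g : G) (a : A),
    IsLocalRing.residue A ⟨SemilinearAut.baseAut (ρ g) (a : L), mem_A g a a.2⟩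
      = SemilinearAut.baseAut (ρb g) (IsLocalRing.residue A a)
  mem_O : ∀ (g : G) (f : F), f ∈ D.O → ρ g • f ∈ D.O
  redF_smul : ∀ (g : G) (f : F), f ∈ D.O → D.redF (ρ g • f) = ρb g • D.redF f
  r_smul : ∀ (g : G) (P : Place L F), D.r (ρ g • P) = ρb g • D.r P
  inertia : ∀ g ∈ I, ρb g = 1

namespace SymData

variable {D : RedDatum A F Fk} {G : Type*} [Group G] (S : SymData D G)

/-- the `I`-fixed elements of `A` -/
def R : Subring L where
  carrier := {a | a ∈ A ∧ ∀ g ∈ S.I, SemilinearAut.baseAut (S.ρ g) a = a}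
  mul_mem' := fun {a b} ha hb => ⟨A.mul_mem _ _ ha.1 hb.1, fun g hg => by
    rw [map_mul, ha.2 g hg, hb.2 g hg]⟩
  one_mem' := ⟨A.one_mem, fun g _ => map_one _⟩
  add_mem' := fun {a b} ha hb => ⟨A.add_mem _ _ ha.1 hb.1, fun g hg => by
    rw [map_add, ha.2 g hg, hb.2 g hg]⟩
  zero_mem' := ⟨A.zero_mem, fun g _ => map_zero _⟩
  neg_mem' := fun {a} ha => ⟨A.neg_mem _ ha.1, fun g hg => by rw [map_neg, ha.2 g hg]⟩

theorem mem_R {a : L} :
    a ∈ S.R ↔ a ∈ A ∧ ∀ g ∈ S.I, SemilinearAut.baseAut (S.ρ g) a = a := Iff.rfl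

theorem R_le : ∀ a ∈ S.R, a ∈ A := fun _ ha => ha.1

/-- `I`-fixed functions -/
def FixF (f : F) : Prop := ∀ g ∈ S.I, S.ρ g • f = f

/-- `I`-fixed places -/
def FixP (P : Place L F) : Prop := ∀ g ∈ S.I, S.ρ g • P = P

/-- `I`-stable divisors -/
def FixD (E : Divisor L F) : Prop := ∀ g ∈ S.I, S.ρ g • E = E

theorem fixF_zero : S.FixF 0 := fun g _ => smul_zero _

theorem fixF_one : S.FixF 1 := fun g _ => smul_one _

theorem FixF.add {f f' : F} (h : S.FixF f) (h' : S.FixF f') : S.FixF (f + f') :=
  fun g hg => by rw [smul_add, h g hg, h' g hg]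

theorem FixF.sub {f f' : F} (h : S.FixF f) (h' : S.FixF f') : S.FixF (f - f') :=
  fun g hg => by rw [smul_sub, h g hg, h' g hg]

theorem FixF.neg {f : F} (h : S.FixF f) : S.FixF (-f) :=
  fun g hg => by rw [smul_neg, h g hg]

theorem FixF.mul {f f' : F} (h : S.FixF f) (h' : S.FixF f') : S.FixF (f * f') :=
  fun g hg => by rw [smul_mul', h g hg, h' g hg]

theorem FixF.inv {f : F} (h : S.FixF f) : S.FixF f⁻¹ :=
  fun g hg => by rw [smul_inv'', h g hg]

theorem FixF.pow {f : F} (h : S.FixF f) (n : ℕ) : S.FixF (f ^ n) :=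
  fun g hg => by rw [smul_pow', h g hg]

theorem fixF_const {a : L} (ha : a ∈ S.R) : S.FixF (algebraMap L F a) :=
  fun g hg => by rw [SemilinearAut.smul_algebraMap, ha.2 g hg]

theorem FixF.sum {ι : Type*} (s : Finset ι) (φ : ι → F) (h : ∀ i ∈ s, S.FixF (φ i)) :
    S.FixF (∑ i ∈ s, φ i) := fun g hg => by
  rw [Finset.smul_sum]
  exact Finset.sum_congr rfl fun i hi => h i hi g hg

/-- the value of a fixed function at a fixed place lies in `R` once it lies in `A` -/
theorem ev_mem_R {P : Place L F} (hP : P.deg = 1) {f : F} (hf : RegAt P f)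
    (hFP : S.FixP P) (hFf : S.FixF f) (hA : ev P f ∈ A) : ev P f ∈ S.R :=
  ⟨hA, fun g hg => ev_fixed (S.ρ g) hP hf (hFP g hg) (hFf g hg)⟩

/-- the divided difference of fixed data is fixed -/
theorem FixF.dq {P : Place L F} (hP : P.deg = 1) {t f : F} (ht : RegAt P t) (hf : RegAt P f)
    (hFP : S.FixP P) (hFt : S.FixF t) (hFf : S.FixF f) : S.FixF (C.dq P t f) :=
  fun g hg => dq_fixed (S.ρ g) hP ht hf (hFP g hg) (hFt g hg) (hFf g hg)

/-- inertia preserves the residue discs -/
theorem r_smul_inertia {g : G} (hg : g ∈ S.I) (P : Place L F) : D.r (S.ρ g • P) = D.r P := by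
  rw [S.r_smul, S.inertia g hg, one_smul]

/-- inertia commutes with reduction -/
theorem redF_smul_inertia {g : G} (hg : g ∈ S.I) {f : F} (hf : f ∈ D.O) :
    D.redF (S.ρ g • f) = D.redF f := by
  rw [S.redF_smul g f hf, S.inertia g hg, one_smul]

theorem mem_O_iff (g : G) (f : F) : S.ρ g • f ∈ D.O ↔ f ∈ D.O := by
  refine ⟨fun h => ?_, S.mem_O g f⟩
  have := S.mem_O g⁻¹ _ h
  rwa [map_inv, inv_smul_smul] at this

variable [HasPrincipalDivisors L F] [HasPrincipalDivisors (IsLocalRing.ResidueField A) Fk]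

/-- transport of disc-regularity by a symmetry -/
theorem discReg_smul (g : G) {Qb : Place k Fk} {f : F} (hf : DiscReg D Qb f) :
    DiscReg D (S.ρb g • Qb) (S.ρ g • f) := by
  refine ⟨S.mem_O g f hf.1, fun P hP => ?_⟩
  have h1 : D.r ((S.ρ g)⁻¹ • P) = Qb := by
    have := S.r_smul g⁻¹ P
    rw [map_inv, map_inv, hP, inv_smul_smul] at this
    exact this
  have h2 := regAt_smul (S.ρ g) (hf.2 _ h1)
  rwa [smul_inv_smul] at h2

/-- inertia preserves disc-regularity on the same disc -/
theorem discReg_smul_inertia {g : G} (hg : g ∈ S.I) {Qb : Place k Fk} {f : F}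
    (hf : DiscReg D Qb f) : DiscReg D Qb (S.ρ g • f) := by
  have := S.discReg_smul g hf
  rwa [S.inertia g hg, one_smul] at this

/-- **(H1)**: the only zero in its disc of a fixed disc-regular function is a fixed place -/
theorem fixP_of_unique_zero {Qb : Place k Fk} {t : F} (hFt : S.FixF t) {P : Place L F}
    (hP : D.r P = Qb) (hzero : 0 < P.ord t)
    (huniq : ∀ P' : Place L F, D.r P' = Qb → 0 < P'.ord t → P' = P) : S.FixP P := by
  intro g hg
  apply huniq
  · rw [S.r_smul_inertia hg, hP]
  · have := SemilinearAut.ord_smul (S.ρ g) P t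
    rw [hFt g hg] at this
    rw [this]
    exact hzero

/-- the lifting property of `I`-stable Riemann–Roch spaces (in the modular instance: Speiser +
`K`-rational Gauss data, `S36lib/Desc2`) -/
def HasFixedLifts : Prop :=
  ∀ E : Divisor L F, S.FixD E → ∀ f ∈ riemannRochSpace E, f ∈ D.O →
    ∃ f' ∈ riemannRochSpace E, f' ∈ D.O ∧ S.FixF f' ∧ D.redF f' = D.redF f

end SymData

end Fermat.Agent.S19lib.Geom

end
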