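/-
S19lib / Geom / Family  (helper3)  — Project FF, the interface between FF-B/FF-C and FF-D

* `Fam D S g` : an *admissible chart family*: `g` fixed charts over `g` distinct places `Qb i` of
  the residue curve whose sum is a non-special divisor (`ℓ = 1`);
* `Fam.Dv u`, `Fam.E`, `Fam.Θ u = [Dv u - E] ∈ Pic⁰` for `u ∈ 𝔪_A^g`;
* `Kred D` : the kernel of reduction on `Pic⁰` (classes of degree-zero divisors whose push-forward
  is principal);
* `Solve a b c ϖ` : an analytic solution of the trilinear relation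
  `Θ_a u + Θ_b v + Θ_c (τ (u, v)) = 0`;
* the statements delivered by the other geometry blocks:
  `ExistsFamStmt` (FF-B), `ExistsTriStmt` (FF-B + FF-C), `FixedLiftPlaceStmt` (FF-B),
  `KerStmt` (FF-B/RedRR: `Θ_a : 𝔪_A^g → Kred` is bijective).
-/
import Fermat.Agent.S19lib.Geom.Taylor
import Fermat.Agent.S19lib.B.Special

set_option autoImplicit false
set_option linter.unusedSectionVars false

noncomputable section

namespace Fermat.Agent.S19lib.Geom

open AlgebraicCurve Fermat.Agent.LSb Fermat.Agent.S18lib Fermat.Agent.S19lib.C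

variable {L : Type*} [Field L] {A : ValuationSubring L}
variable {F : Type*} [Field F] [Algebra L F]
variable {Fk : Type*} [Field Fk] [Algebra (IsLocalRing.ResidueField A) Fk]
variable [HasPrincipalDivisors L F] [HasPrincipalDivisors (IsLocalRing.ResidueField A) Fk]

local notation "k" => IsLocalRing.ResidueField A

/-! ### the kernel of reduction -/

/-- the kernel of reduction on `Pic⁰` -/
def Kred (D : RedDatum A F Fk) : AddSubgroup (Pic0 L F) where
  carrier := {z | ∃ E : Divisor.degZero (K := L) (F := F), Pic0.mk E = z ∧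
    Finsupp.mapDomain D.r (E : Divisor L F) ∈ Divisor.principal (K := k) (F := Fk)}
  zero_mem' := ⟨0, rfl, by
    rw [ZeroMemClass.coe_zero, Finsupp.mapDomain_zero]; exact AddSubgroup.zero_mem _⟩
  add_mem' := by
    rintro _ _ ⟨E, rfl, hE⟩ ⟨E', rfl, hE'⟩
    refine ⟨E + E', rfl, ?_⟩
    rw [AddSubgroup.coe_add, Finsupp.mapDomain_add]
    exact AddSubgroup.add_mem _ hE hE'
  neg_mem' := by
    rintro _ ⟨E, rfl, hE⟩
    refine ⟨-E, rfl, ?_⟩
    rw [AddSubgroup.coe_neg, ← Finsupp.mapDomain.addMonoidHom_apply, map_neg,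
      Finsupp.mapDomain.addMonoidHom_apply]
    exact AddSubgroup.neg_mem _ hE

/-- membership does not depend on the representative -/
theorem mem_Kred_mk_iff (D : RedDatum A F Fk) (E : Divisor.degZero (K := L) (F := F)) :
    Pic0.mk E ∈ Kred D ↔
      Finsupp.mapDomain D.r (E : Divisor L F) ∈ Divisor.principal (K := k) (F := Fk) := by
  constructor
  · rintro ⟨E', hEE', hE'⟩
    have h1 : (E' : Divisor L F) - (E : Divisor L F) ∈ Divisor.principal (K := L) (F := F) := by
      have := (QuotientAddGroup.eq_iff_sub_mem (N := (Divisor.principal (K := L) (F := F)).addSubgroupOf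
        (Divisor.degZero (K := L) (F := F))) (x := E') (y := E)).1 hEE'
      exact this
    have h2 := D.mapDomain_mem_principal h1
    rw [Finsupp.mapDomain_sub] at h2
    have h3 := AddSubgroup.sub_mem _ hE' h2
    rwa [sub_sub_cancel] at h3
  · intro h
    exact ⟨E, rfl, h⟩

/-! ### chart families -/

variable {G : Type*} [Group G]

/-- an admissible chart family -/
structure Fam (D : RedDatum A F Fk) (S : SymData D G) (g : ℕ) where
  /-- the centres on the residue curve -/
  Qb : Fin g → Place k Fk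
  /-- the charts -/
  ch : ∀ i, Chart D (Qb i)
  inj : Function.Injective Qb
  fixT : ∀ i, S.FixF (ch i).t
  fixP : ∀ i, S.FixP (ch i).P0
  nonspecial : B.ell (∑ i, B.pt (Qb i)) = 1
  deg_one : ∀ P : Place L F, P.deg = 1

namespace Fam

variable {D : RedDatum A F Fk} {S : SymData D G} {g : ℕ} (a : Fam D S g)

/-- the effective divisor with coordinates `u` -/
def Dv (u : Fin g → L) : Divisor L F := ∑ i, Finsupp.single ((a.ch i).pt (u i)) (1 : ℤ)

/-- the base divisor -/
def E : Divisor L F := ∑ i, Finsupp.single (a.ch i).P0 (1 : ℤ)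

theorem Dv_zero : a.Dv 0 = a.E := by
  rw [Dv, E]
  exact Finset.sum_congr rfl fun i _ => by rw [Pi.zero_apply, (a.ch i).pt_zero]

theorem degree_Dv (u : Fin g → L) : Divisor.degree (a.Dv u) = g := by
  rw [Dv, map_sum]
  simp [Divisor.degree_single, a.deg_one]

theorem degree_E : Divisor.degree a.E = g := by
  rw [← a.Dv_zero, a.degree_Dv]

theorem mapDomain_Dv (u : Fin g → L) :
    Finsupp.mapDomain D.r (a.Dv u) = ∑ i, B.pt (a.Qb i) := by
  rw [Dv, Finsupp.mapDomain_finset_sum]
  exact Finset.sum_congr rfl fun i _ => by rw [Finsupp.mapDomain_single, (a.ch i).r_pt]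

theorem mapDomain_E : Finsupp.mapDomain D.r a.E = ∑ i, B.pt (a.Qb i) := by
  rw [← a.Dv_zero, a.mapDomain_Dv]

theorem sub_mem_degZero (u : Fin g → L) :
    a.Dv u - a.E ∈ Divisor.degZero (K := L) (F := F) := by
  rw [Divisor.mem_degZero, map_sub, a.degree_Dv, a.degree_E, sub_self]

/-- the point of `Pic⁰` with coordinates `u` -/
def Θ (u : Fin g → L) : Pic0 L F := Pic0.mk ⟨a.Dv u - a.E, a.sub_mem_degZero u⟩

theorem Θ_zero : a.Θ 0 = 0 := by
  have h : (⟨a.Dv 0 - a.E, a.sub_mem_degZero 0⟩ : Divisor.degZero (K := L) (F := F)) = 0 :=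
    Subtype.ext (by
      show a.Dv 0 - a.E = 0
      rw [a.Dv_zero, sub_self])
  rw [Θ, h]
  rfl

theorem Θ_mem_Kred (u : Fin g → L) : a.Θ u ∈ Kred D := by
  rw [Θ, mem_Kred_mk_iff]
  show Finsupp.mapDomain D.r (a.Dv u - a.E) ∈ _
  rw [Finsupp.mapDomain_sub, a.mapDomain_Dv, a.mapDomain_E, sub_self]
  exact AddSubgroup.zero_mem _

/-- two families are disjoint if their discs are -/
def Disjoint (a b : Fam D S g) : Prop := ∀ i j, a.Qb i ≠ b.Qb j

/-- the family avoids a finite set of places of the residue curve -/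
def Avoids (a : Fam D S g) (T : Finset (Place k Fk)) : Prop := ∀ i, a.Qb i ∉ T

end Fam

/-! ### analytic solutions of the trilinear relation -/

/-- an analytic solution `w = τ (u, v)` of `Θ_a u + Θ_b v + Θ_c w = 0` -/
structure Solve {D : RedDatum A F Fk} {S : SymData D G} {g : ℕ} (a b c : Fam D S g) (ϖ : L) where
  /-- the solution map -/
  τ : (Fin g ⊕ Fin g → L) → Fin g → L
  mem : ∀ w ∈ PolyDisc A (Fin g ⊕ Fin g), τ w ∈ PolyDisc A (Fin g)
  spec : ∀ w ∈ PolyDisc A (Fin g ⊕ Fin g),
    a.Θ (fun i => w (Sum.inl i)) + b.Θ (fun i => w (Sum.inr i)) + c.Θ (τ w) = 0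
  an : AnalyticMap A S.R ϖ τ

/-- **FF-B**: admissible families exist away from any finite set -/
def ExistsFamStmt (D : RedDatum A F Fk) (S : SymData D G) (g : ℕ) : Prop :=
  ∀ T : Finset (Place k Fk), ∃ a : Fam D S g, a.Avoids T

/-- **FF-B + FF-C**: two disjoint admissible families are completed by a third one (away from any
finite set) to a configuration whose trilinear relation is analytically solvable in each of the
three variables. -/
def ExistsTriStmt (D : RedDatum A F Fk) (S : SymData D G) (g : ℕ) (ϖ : L) : Prop :=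
  ∀ (a b : Fam D S g), a.Disjoint b → ∀ T : Finset (Place k Fk),
    ∃ c : Fam D S g, a.Disjoint c ∧ b.Disjoint c ∧ c.Avoids T ∧
      Nonempty (Solve a b c ϖ) ∧ Nonempty (Solve b c a ϖ) ∧ Nonempty (Solve c a b ϖ)

/-- **FF-B**: every place of the residue curve has a fixed lift -/
def FixedLiftPlaceStmt (D : RedDatum A F Fk) (S : SymData D G) : Prop :=
  ∀ Q : Place k Fk, ∃ P : Place L F, D.r P = Q ∧ S.FixP P

/-- **FF-B / RedRR**: `Θ_a` is a bijection from the polydisc onto the kernel of reduction -/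
def KerStmt (D : RedDatum A F Fk) (S : SymData D G) (g : ℕ) : Prop :=
  ∀ a : Fam D S g,
    (∀ z ∈ Kred D, ∃ u ∈ PolyDisc A (Fin g), a.Θ u = z) ∧
    (∀ u ∈ PolyDisc A (Fin g), ∀ u' ∈ PolyDisc A (Fin g), a.Θ u = a.Θ u' → u = u')

end Fermat.Agent.S19lib.Geom

end
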