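/-
S19lib / Geom / Sec  (helper3)  — Project FF, block FF-C, piece (Q1): the determinant section

For a configuration `T : B.TriData a b c` and coordinates `w = (u, v)`:
`sec w = ∑ j, cross (Lam a b T.e w) j • T.e j ∈ L(B)` vanishes at the `2g` points of
`a.Dv u + b.Dv v`, hence lies in `V_w = L(B - a.Dv u - b.Dv v)`, a space of dimension `≤ 1`
(semicontinuity + `rr_ab`).  Consequently it vanishes wherever a nonzero element of `V_w` does:
this is the hypothesis `hZ` of the Newton application `An.analyticOn_ev_zero`.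
-/
import Fermat.Agent.S19lib.An.Minors
import Fermat.Agent.S19lib.B.Tri

set_option autoImplicit false
set_option linter.unusedSectionVars false

noncomputable section

namespace Fermat.Agent.S19lib.Geom

open AlgebraicCurve Module Fermat.Agent.LSb Fermat.Agent.S18lib Fermat.Agent.S19lib.C
  Fermat.Agent.S19lib.An

variable {L : Type*} [Field L] {A : ValuationSubring L}
variable {F : Type*} [Field F] [Algebra L F]
variable {Fk : Type*} [Field Fk] [Algebra (IsLocalRing.ResidueField A) Fk]
variable [HasPrincipalDivisors L F] [HasPrincipalDivisors (IsLocalRing.ResidueField A) Fk]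
variable {G : Type*} [Group G]
variable {D : RedDatum A F Fk} {S : SymData D G} {g : ℕ}

local notation "k" => IsLocalRing.ResidueField A

/-- a function of `L(E) ∩ O` is regular on a disc where `E` vanishes -/
theorem discReg_of_mem_rr {E : Divisor L F} {Q : Place k Fk}
    (hE : ∀ P : Place L F, D.r P = Q → E P = 0) {f : F} (hf : f ∈ riemannRochSpace E)
    (hO : f ∈ D.O) : DiscReg D Q f := by
  refine ⟨hO, fun P hP => ?_⟩
  rcases (mem_riemannRochSpace_iff.1 hf) P with h0 | h
  · rw [h0]; exact regAt_zero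
  · rw [regAt_iff_ord]
    rw [hE P hP, neg_zero] at h
    exact h

/-! ### the `2g` points -/

section pts

variable (a b : Fam D S g) (w : Fin g ⊕ Fin g → L)

theorem r_pts_inl (i : Fin g) : D.r (pts a b w (Sum.inl i)) = a.Qb i := (a.ch i).r_pt _

theorem r_pts_inr (i : Fin g) : D.r (pts a b w (Sum.inr i)) = b.Qb i := (b.ch i).r_pt _

theorem pts_injective (hab : a.Disjoint b) : Function.Injective (pts a b w) := by
  intro r r' h
  have hr := congrArg D.r h
  rcases r with i | i <;> rcases r' with j | j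
  · rw [r_pts_inl, r_pts_inl] at hr
    rw [a.inj hr]
  · rw [r_pts_inl, r_pts_inr] at hr
    exact absurd hr (hab i j)
  · rw [r_pts_inr, r_pts_inl] at hr
    exact absurd hr.symm (hab j i)
  · rw [r_pts_inr, r_pts_inr] at hr
    rw [b.inj hr]

/-- the divisor of the `2g` points -/
theorem Dv_add_Dv_eq :
    a.Dv (fun i => w (Sum.inl i)) + b.Dv (fun i => w (Sum.inr i))
      = ∑ r, Finsupp.single (pts a b w r) (1 : ℤ) := by
  rw [Fintype.sum_sum_type]
  rfl

theorem Dv_add_Dv_apply_pts (hab : a.Disjoint b) (r : Fin g ⊕ Fin g) :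
    (a.Dv (fun i => w (Sum.inl i)) + b.Dv (fun i => w (Sum.inr i))) (pts a b w r) = 1 := by
  classical
  rw [Dv_add_Dv_eq, Finsupp.finset_sum_apply]
  rw [Finset.sum_eq_single r]
  · exact Finsupp.single_eq_same
  · intro r' _ hne
    exact Finsupp.single_eq_of_ne (fun h => hne (pts_injective a b w hab h).symm)
  · intro h; exact absurd (Finset.mem_univ r) h

theorem Dv_add_Dv_apply_of_ne {P : Place L F} (hP : ∀ r, pts a b w r ≠ P) :
    (a.Dv (fun i => w (Sum.inl i)) + b.Dv (fun i => w (Sum.inr i))) P = 0 := by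
  classical
  rw [Dv_add_Dv_eq, Finsupp.finset_sum_apply]
  exact Finset.sum_eq_zero fun r _ => Finsupp.single_eq_of_ne (hP r).symm

end pts

/-! ### the determinant section -/

/-- the determinant section -/
def sec (a b : Fam D S g) (e : Fin (2 * g + 1) → F) (w : Fin g ⊕ Fin g → L) : F :=
  ∑ j, cross (Lam a b e w) j • e j

theorem sec_mem_span (a b : Fam D S g) (e : Fin (2 * g + 1) → F) (w : Fin g ⊕ Fin g → L) :
    sec a b e w ∈ Submodule.span L (Set.range e) :=
  Submodule.sum_mem _ fun j _ => Submodule.smul_mem _ _ (Submodule.subset_span ⟨j, rfl⟩)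

/-- evaluation of the determinant section at a place where the `e j` are regular -/
theorem ev_sec (a b : Fam D S g) (e : Fin (2 * g + 1) → F) (w : Fin g ⊕ Fin g → L)
    {Z : Place L F} (hZ : ∀ j, RegAt Z (e j)) :
    ev Z (sec a b e w) = ∑ j, cross (Lam a b e w) j * ev Z (e j) := by
  have hd := a.deg_one Z
  rw [sec, ev_sum hd _ _ (fun j _ => (hZ j).smul _)]
  exact Finset.sum_congr rfl fun j _ => ev_smul hd _ (hZ j)

/-- the determinant section vanishes at the `2g` points -/
theorem ev_pts_sec (a b : Fam D S g) (e : Fin (2 * g + 1) → F) (w : Fin g ⊕ Fin g → L)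
    (hreg : ∀ r j, RegAt (pts a b w r) (e j)) (r : Fin g ⊕ Fin g) :
    ev (pts a b w r) (sec a b e w) = 0 := by
  rw [ev_sec a b e w (hreg r)]
  have h := congrFun (mulVec_cross (Lam a b e w)) ((rowEquiv g).symm r)
  rw [Pi.zero_apply, Matrix.mulVec, dotProduct] at h
  rw [← h]
  refine Finset.sum_congr rfl fun j _ => ?_
  rw [mul_comm]
  congr 1
  show ev (pts a b w r) (e j) = ev (pts a b w (rowEquiv g ((rowEquiv g).symm r))) (e j)
  rw [Equiv.apply_symm_apply]

variable {a b c : Fam D S g}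

namespace TriSec

variable (T : B.TriData a b c)

theorem e_mem_O (j : Fin (2 * g + 1)) : T.e j ∈ D.O := T.e_orth.1 j

theorem discReg_e_a (i : Fin g) (j : Fin (2 * g + 1)) : DiscReg D (a.Qb i) (T.e j) :=
  discReg_of_mem_rr (fun P hP => T.B_disc_a P i hP) (T.e_mem j) (e_mem_O T j)

theorem discReg_e_b (i : Fin g) (j : Fin (2 * g + 1)) : DiscReg D (b.Qb i) (T.e j) :=
  discReg_of_mem_rr (fun P hP => T.B_disc_b P i hP) (T.e_mem j) (e_mem_O T j)

theorem discReg_e_c (i : Fin g) (j : Fin (2 * g + 1)) : DiscReg D (c.Qb i) (T.e j) :=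
  discReg_of_mem_rr (fun P hP => T.B_disc_c P i hP) (T.e_mem j) (e_mem_O T j)

theorem regAt_pts (w : Fin g ⊕ Fin g → L) (r : Fin g ⊕ Fin g) (j : Fin (2 * g + 1)) :
    RegAt (pts a b w r) (T.e j) := by
  rcases r with i | i
  · exact (discReg_e_a T i j).2 _ (r_pts_inl a b w i)
  · exact (discReg_e_b T i j).2 _ (r_pts_inr a b w i)

theorem Bd_pts (w : Fin g ⊕ Fin g → L) (r : Fin g ⊕ Fin g) : T.Bd (pts a b w r) = 0 := by
  rcases r with i | i
  · exact T.B_disc_a _ i (r_pts_inl a b w i)
  · exact T.B_disc_b _ i (r_pts_inr a b w i)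

/-- the space `V_w = L(B - a.Dv u - b.Dv v)` -/
def V (w : Fin g ⊕ Fin g → L) : Submodule L F :=
  riemannRochSpace (T.Bd - a.Dv (fun i => w (Sum.inl i)) - b.Dv (fun i => w (Sum.inr i)))

theorem sec_mem_rr (w : Fin g ⊕ Fin g → L) : sec a b T.e w ∈ riemannRochSpace T.Bd := by
  have := sec_mem_span a b T.e w
  rw [T.e_span] at this
  exact this

/-- the determinant section lies in `V_w` -/
theorem sec_mem_V (hab : a.Disjoint b) (w : Fin g ⊕ Fin g → L) : sec a b T.e w ∈ V T w := by
  rw [V, mem_riemannRochSpace_iff]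
  intro P
  by_cases h0 : sec a b T.e w = 0
  · exact Or.inl h0
  right
  have hB := (mem_riemannRochSpace_iff.1 (sec_mem_rr T w)) P
  rcases hB with hB | hB
  · exact absurd hB h0
  rw [sub_sub, Finsupp.sub_apply, neg_sub]
  by_cases hP : ∃ r, pts a b w r = P
  · obtain ⟨r, rfl⟩ := hP
    rw [Dv_add_Dv_apply_pts a b w hab r, Bd_pts T w r, sub_zero]
    have hv := (ev_eq_zero_iff (a.deg_one _)
      (show RegAt (pts a b w r) (sec a b T.e w) from
        regAt_sum _ _ fun j _ => (regAt_pts T w r j).smul _)).1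
      (ev_pts_sec a b T.e w (regAt_pts T w) r)
    rcases hv with hv | hv
    · exact absurd hv h0
    · omega
  · push Not at hP
    rw [Dv_add_Dv_apply_of_ne a b w hP, zero_sub]
    exact hB

section Dim

variable (hO : D.HasOrthonormalBases) (hF : IsCurveOfGenus L F g)
  (hFk : IsCurveOfGenus (IsLocalRing.ResidueField A) Fk g)
include hO hF hFk

/-- `dim V_w ≤ 1` -/
theorem finrank_V_le (w : Fin g ⊕ Fin g → L) : finrank L (V T w) ≤ 1 := by
  have h1 := B.ell_le_ell_mapDomain D hO hF hFk
    (T.Bd - a.Dv (fun i => w (Sum.inl i)) - b.Dv (fun i => w (Sum.inr i)))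
  rw [Finsupp.mapDomain_sub, Finsupp.mapDomain_sub, a.mapDomain_Dv, b.mapDomain_Dv] at h1
  have h2 : B.ell (Finsupp.mapDomain D.r T.Bd - ∑ i, B.pt (a.Qb i) - ∑ i, B.pt (b.Qb i)) ≤ 1 := by
    rw [B.ell_def]
    have := T.rr_ab
    rw [B.Fam.Eb, B.Fam.Eb] at this
    rw [this]
    exact (finrank_span_le_card _).trans (by simp)
  exact h1.trans h2

/-- **the link**: the determinant section vanishes wherever a nonzero element of `V_w` does -/
theorem sum_cross_mul_ev_eq_zero (hab : a.Disjoint b) (w : Fin g ⊕ Fin g → L) {s : F}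
    (hsV : s ∈ V T w) (hs0 : s ≠ 0) {Z : Place L F} (hZreg : ∀ j, RegAt Z (T.e j))
    (hZ : VanAt Z s) : ∑ j, cross (Lam a b T.e w) j * ev Z (T.e j) = 0 := by
  have hfd : FiniteDimensional L (V T w) := hF.finiteDimensional _
  have hle := finrank_V_le T hO hF hFk w
  have hpos : 0 < finrank L (V T w) :=
    Module.finrank_pos_iff_exists_ne_zero.2 ⟨⟨s, hsV⟩, fun h => hs0 (congrArg Subtype.val h)⟩
  have h1 : finrank L (V T w) = 1 := le_antisymm hle hpos
  obtain ⟨μ, hμ⟩ := exists_smul_eq_of_finrank_eq_one h1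
    (x := (⟨s, hsV⟩ : V T w)) (fun h => hs0 (congrArg Subtype.val h))
    (⟨sec a b T.e w, sec_mem_V T hab w⟩ : V T w)
  have hμ' : μ • s = sec a b T.e w := congrArg Subtype.val hμ
  rw [← ev_sec a b T.e w hZreg, ← hμ']
  have hd := a.deg_one Z
  rw [ev_smul hd μ hZ.regAt, (ev_eq_zero_iff hd hZ.regAt).2 hZ, mul_zero]

end Dim

end TriSec

end Fermat.Agent.S19lib.Geom

end
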